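import Fermat.Agent.MinkowskiHlawka.Count
import Fermat.Agent.Root.SummaryCubeRootBounds
import Mathlib.NumberTheory.LSeries.HurwitzZetaValues
import Mathlib.NumberTheory.PythagoreanTriples
import Mathlib.Tactic

/-!
# Lehmer's count of primitive Pythagorean triples

The triples correspond to the coprime points of opposite parity in an eighth of the disc, which
are counted by Möbius inversion over odd divisors and Gauss's circle problem.
-/

set_option autoImplicit false

open Filter Topology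
open scoped Real ArithmeticFunction.Moebius

namespace FA.PythagoreanCount

/-- The lattice points with `x² + y² ≤ M`. -/
def disc (M : ℕ) : Set (ℤ × ℤ) := {v | v.1 ^ 2 + v.2 ^ 2 ≤ (M : ℤ)}

/-- Those with `x + y` odd. -/
def oddPts (M : ℕ) : Set (ℤ × ℤ) := {v | v ∈ disc M ∧ (v.1 + v.2) % 2 = 1}

/-- Those that are moreover coprime. -/
def primPts (M : ℕ) : Set (ℤ × ℤ) := {v | v ∈ oddPts M ∧ Int.gcd v.1 v.2 = 1}

theorem disc_subset (M : ℕ) :
    disc M ⊆ Set.Icc (-(Nat.sqrt M : ℤ)) (Nat.sqrt M) ×ˢ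
      Set.Icc (-(Nat.sqrt M : ℤ)) (Nat.sqrt M) := by
  intro v hv
  have hv' : v.1 ^ 2 + v.2 ^ 2 ≤ (M : ℤ) := hv
  have key : ∀ x : ℤ, x ^ 2 ≤ (M : ℤ) → -(Nat.sqrt M : ℤ) ≤ x ∧ x ≤ Nat.sqrt M := by
    intro x hx
    have h : x.natAbs ≤ Nat.sqrt M := Nat.le_sqrt'.2 (by
      rw [← Int.ofNat_le, Nat.cast_pow, Int.natAbs_sq]
      exact hx)
    omega
  exact ⟨key _ (by nlinarith), key _ (by nlinarith)⟩

theorem disc_finite (M : ℕ) : (disc M).Finite :=
  ((Set.finite_Icc _ _).prod (Set.finite_Icc _ _)).subset (disc_subset M)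

theorem ncard_disc_le {M : ℕ} (hM : 0 < M) : (disc M).ncard ≤ 9 * M := by
  refine (Set.ncard_le_ncard (disc_subset M)
    ((Set.finite_Icc _ _).prod (Set.finite_Icc _ _))).trans ?_
  rw [Set.ncard_prod, ← Finset.coe_Icc, Set.ncard_coe_finset, Int.card_Icc]
  have h1 := Nat.sqrt_le' M
  have h2 : 1 ≤ Nat.sqrt M := Nat.le_sqrt'.2 (by omega)
  rw [show ((Nat.sqrt M : ℤ) + 1 - -(Nat.sqrt M : ℤ)).toNat = 2 * Nat.sqrt M + 1 by omega]
  nlinarith

theorem oddPts_finite (M : ℕ) : (oddPts M).Finite := (disc_finite M).subset fun _ h => h.1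

theorem oddPts_zero : oddPts 0 = ∅ := by
  rw [Set.eq_empty_iff_forall_notMem]
  rintro ⟨x, y⟩ ⟨hv, hp⟩
  have hv' : x ^ 2 + y ^ 2 ≤ 0 := hv
  have hx : x = 0 := by nlinarith
  have hy : y = 0 := by nlinarith
  simp [hx, hy] at hp

theorem ncard_oddPts_add (M : ℕ) : (oddPts M).ncard + (disc (M / 2)).ncard = (disc M).ncard := by
  have h : disc M = oddPts M ∪ (fun v : ℤ × ℤ => (v.1 + v.2, v.1 - v.2)) '' disc (M / 2) := by
    ext ⟨x, y⟩
    refine ⟨fun hv => ?_, ?_⟩
    · have hv' : x ^ 2 + y ^ 2 ≤ (M : ℤ) := hv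
      by_cases hp : (x + y) % 2 = 1
      · exact Or.inl ⟨hv, hp⟩
      · obtain ⟨u, hu⟩ : ∃ u, x + y = 2 * u := ⟨(x + y) / 2, by omega⟩
        refine Or.inr ⟨(u, x - u), ?_, Prod.ext (by simp) (by simp only; omega)⟩
        show u ^ 2 + (x - u) ^ 2 ≤ ((M / 2 : ℕ) : ℤ)
        have h2 : 2 * (u ^ 2 + (x - u) ^ 2) = x ^ 2 + y ^ 2 := by
          rw [show y = 2 * u - x by omega]
          ring
        omega
    · rintro (hv | ⟨⟨u, w⟩, huw, e⟩)
      · exact hv.1
      · have huw' : u ^ 2 + w ^ 2 ≤ ((M / 2 : ℕ) : ℤ) := huw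
        simp only [Prod.mk.injEq] at e
        show x ^ 2 + y ^ 2 ≤ (M : ℤ)
        rw [← e.1, ← e.2, show (u + w) ^ 2 + (u - w) ^ 2 = 2 * (u ^ 2 + w ^ 2) by ring]
        omega
  rw [h, Set.ncard_union_eq ?_ (oddPts_finite M) ((disc_finite _).image _),
    Set.ncard_image_of_injective]
  · intro v w e
    simp only [Prod.mk.injEq] at e
    exact Prod.ext (by omega) (by omega)
  · rw [Set.disjoint_left]
    rintro v hv ⟨⟨u, w⟩, -, rfl⟩
    have := hv.2
    simp only at this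
    omega

theorem tendsto_ncard_disc : Tendsto (fun M : ℕ => ((disc M).ncard : ℝ) / M) atTop (𝓝 π) := by
  have h := FA.Summary.gauss_circle_isBigO (1 / 2) (by norm_num)
  have ho : (fun M : ℕ => ((M : ℝ)) ^ (1 / 2 : ℝ)) =o[atTop] fun M : ℕ => (M : ℝ) :=
    Asymptotics.isLittleO_of_tendsto' (eventually_atTop.2
        ⟨1, fun M hM h => absurd h (Nat.cast_ne_zero.2 (by omega))⟩)
      (((tendsto_rpow_neg_atTop (y := (1 / 2 : ℝ)) (by norm_num)).comp
        tendsto_natCast_atTop_atTop).congr' (by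
          filter_upwards [eventually_gt_atTop 0] with M hM
          simp only [Function.comp_apply]
          rw [show -(1 / 2 : ℝ) = 1 / 2 - 1 by norm_num,
            Real.rpow_sub_one (Nat.cast_ne_zero.2 hM.ne')]))
  have h0 := ((h.trans_isLittleO ho).tendsto_div_nhds_zero).add_const π
  rw [zero_add] at h0
  refine h0.congr' ?_
  filter_upwards [eventually_gt_atTop 0] with M hM
  have : (M : ℝ) ≠ 0 := Nat.cast_ne_zero.2 hM.ne'
  show _ = ((disc M).ncard : ℝ) / M
  rw [sub_div, mul_div_assoc, div_self this, mul_one, sub_add_cancel]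
  rfl

theorem tendsto_ncard_disc_div {k : ℕ} (hk : 0 < k) :
    Tendsto (fun N : ℕ => ((disc (N / k)).ncard : ℝ) / N) atTop (𝓝 (π / k)) := by
  have hfl : Tendsto (fun N : ℕ => ((N / k : ℕ) : ℝ) / N) atTop (𝓝 (1 / k)) := by
    refine ((tendsto_nat_floor_mul_div_atTop (show (0 : ℝ) ≤ 1 / k by positivity)).comp
      tendsto_natCast_atTop_atTop).congr fun N => ?_
    simp only [Function.comp_apply]
    rw [one_div_mul_eq_div, Nat.floor_div_eq_div]
  have h := (tendsto_ncard_disc.comp (Nat.tendsto_div_const_atTop hk.ne')).mul hfl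
  rw [show π * (1 / (k : ℝ)) = π / k by ring] at h
  refine h.congr' ?_
  filter_upwards [eventually_ge_atTop k] with N hN
  have : ((N / k : ℕ) : ℝ) ≠ 0 := Nat.cast_ne_zero.2 (Nat.div_pos hN hk).ne'
  simp only [Function.comp_apply]
  field_simp

theorem tendsto_ncard_oddPts {k : ℕ} (hk : 0 < k) :
    Tendsto (fun N : ℕ => ((oddPts (N / k)).ncard : ℝ) / N) atTop (𝓝 (π / (2 * k))) := by
  have h := (tendsto_ncard_disc_div hk).sub (tendsto_ncard_disc_div (show 0 < k * 2 by omega))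
  rw [show π / (k : ℝ) - π / ((k * 2 : ℕ) : ℝ) = π / (2 * k) by push_cast; field_simp; ring] at h
  refine h.congr fun N => ?_
  rw [← sub_div]
  congr 1
  have := ncard_oddPts_add (N / k)
  rw [Nat.div_div_eq_div_mul] at this
  rw [sub_eq_iff_eq_add]
  exact_mod_cast this.symm

/-- The weights `μ d / d²` at odd `d`. -/
noncomputable def oddWeight (d : ℕ) : ℝ :=
  if Odd d then (μ d : ℝ) / (d : ℝ) ^ 2 else 0

theorem tsum_oddWeight : ∑' d, oddWeight d = 8 / π ^ 2 := by
  set g : ℕ → ℝ := fun d => (μ d : ℝ) / (d : ℝ) ^ 2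
  have hg : Summable g := by
    refine Summable.of_norm_bounded (Real.summable_one_div_nat_pow.2 one_lt_two) fun d => ?_
    rw [Real.norm_eq_abs, abs_div, abs_of_nonneg (by positivity : (0 : ℝ) ≤ (d : ℝ) ^ 2)]
    gcongr
    exact_mod_cast ArithmeticFunction.abs_moebius_le_one
  have htotal : ∑' d, g d = 6 / π ^ 2 := by
    rw [FA.MinkowskiHlawka.tsum_moebius_div_pow one_lt_two, FA.MinkowskiHlawka.zetaNat,
      hasSum_zeta_two.tsum_eq, inv_div]
  have ho : Summable fun e => g (2 * e + 1) :=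
    hg.comp_injective fun a b h => by simpa using h
  have hev : Summable fun e => g (2 * e) :=
    hg.comp_injective fun a b h => by simpa using h
  have he2 : (fun e => oddWeight (2 * e)) = fun _ => 0 := funext fun e => by simp [oddWeight]
  have ho2 : (fun e => oddWeight (2 * e + 1)) = fun e => g (2 * e + 1) :=
    funext fun e => by simp [oddWeight, g]
  have hw : ∑' d, oddWeight d = ∑' e, g (2 * e + 1) := by
    rw [← tsum_even_add_odd (he2 ▸ summable_zero) (ho2 ▸ ho), he2, ho2, tsum_zero, zero_add]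
  have he : ∀ e, g (2 * e) = -(1 / 4) * oddWeight e := by
    intro e
    rcases Nat.even_or_odd e with hev | hod
    · obtain ⟨c, rfl⟩ := hev
      rw [oddWeight, if_neg (by simp), mul_zero]
      simp only [g]
      rw [ArithmeticFunction.moebius_eq_zero_of_not_squarefree, Int.cast_zero, zero_div]
      intro hsq
      have h := hsq 2 ⟨c, by ring⟩
      simp at h
    · rw [oddWeight, if_pos hod]
      simp only [g]
      rw [ArithmeticFunction.isMultiplicative_moebius.map_mul_of_coprime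
        (Nat.coprime_two_left.2 hod), ArithmeticFunction.moebius_apply_prime Nat.prime_two]
      push_cast
      ring
  rw [← tsum_even_add_odd hev ho, ← hw, tsum_congr he, tsum_mul_left] at htotal
  rw [show (8 : ℝ) / π ^ 2 = 4 / 3 * (6 / π ^ 2) by ring, ← htotal]
  ring

theorem gcd_pos_of_mem {N : ℕ} {v : ℤ × ℤ} (h : v ∈ oddPts N) :
    0 < Int.gcd v.1 v.2 ∧ Int.gcd v.1 v.2 ≤ N := by
  have hodd := h.2
  have hv : v.1 ^ 2 + v.2 ^ 2 ≤ (N : ℤ) := h.1
  have hne : v.1 ≠ 0 ∨ v.2 ≠ 0 := by omega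
  refine ⟨Int.gcd_pos_iff.2 hne, ?_⟩
  have h1 := Int.le_self_sq v.1
  have h2 := Int.le_self_sq (-v.1)
  have h3 := Int.le_self_sq v.2
  have h4 := Int.le_self_sq (-v.2)
  rw [neg_sq] at h2 h4
  have h5 := sq_nonneg v.1
  have h6 := sq_nonneg v.2
  rcases hne with hne | hne
  · exact (Int.gcd_le_natAbs_left v.2 hne).trans (by omega)
  · exact (Int.gcd_le_natAbs_right v.1 hne).trans (by omega)

theorem ncard_oddPts_dvd {N d : ℕ} (hd : 0 < d) :
    {v | v ∈ oddPts N ∧ d ∣ Int.gcd v.1 v.2}.ncard =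
      if Odd d then (oddPts (N / d ^ 2)).ncard else 0 := by
  split_ifs with hod
  · rw [← Set.ncard_image_of_injective (oddPts (N / d ^ 2))
      (f := fun v : ℤ × ℤ => ((d : ℤ) * v.1, (d : ℤ) * v.2)) ?_]
    · congr 1
      ext ⟨x, y⟩
      have hd2 : 0 < d ^ 2 := pow_pos hd 2
      constructor
      · rintro ⟨⟨hv, hp⟩, hdvd⟩
        have hdz := Int.natCast_dvd_natCast.2 hdvd
        obtain ⟨u, hu⟩ := hdz.trans (Int.gcd_dvd_left x y)
        obtain ⟨w, hw⟩ := hdz.trans (Int.gcd_dvd_right x y)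
        refine ⟨(u, w), ⟨?_, ?_⟩, Prod.ext hu.symm hw.symm⟩
        · show u ^ 2 + w ^ 2 ≤ ((N / d ^ 2 : ℕ) : ℤ)
          have hv' : x ^ 2 + y ^ 2 ≤ (N : ℤ) := hv
          have hu' : x = (d : ℤ) * u := hu
          have hw' : y = (d : ℤ) * w := hw
          rw [Int.natCast_div, Int.le_ediv_iff_mul_le (by exact_mod_cast hd2)]
          refine le_trans (le_of_eq ?_) hv'
          rw [hu', hw']
          push_cast
          ring
        · simp only at hp ⊢
          rw [show x = (d : ℤ) * u from hu, show y = (d : ℤ) * w from hw, ← mul_add,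
            Int.mul_emod] at hp
          rcases Int.emod_two_eq (u + w) with e | e
          · rw [e] at hp
            simp at hp
          · exact e
      · rintro ⟨⟨u, w⟩, ⟨hv, hp⟩, e⟩
        simp only [Prod.mk.injEq] at e
        obtain ⟨rfl, rfl⟩ := e
        refine ⟨⟨?_, ?_⟩, ?_⟩
        · show ((d : ℤ) * u) ^ 2 + ((d : ℤ) * w) ^ 2 ≤ (N : ℤ)
          have hv' : u ^ 2 + w ^ 2 ≤ ((N / d ^ 2 : ℕ) : ℤ) := hv
          have hN : ((d : ℤ)) ^ 2 * ((N / d ^ 2 : ℕ) : ℤ) ≤ N := by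
            exact_mod_cast Nat.mul_div_le N (d ^ 2)
          nlinarith
        · simp only at hp ⊢
          rw [← mul_add, Int.mul_emod, hp,
            show (d : ℤ) % 2 = 1 by exact_mod_cast Nat.odd_iff.1 hod]
          rfl
        · exact Int.natCast_dvd_natCast.1 (Int.dvd_coe_gcd (dvd_mul_right _ u) (dvd_mul_right _ w))
    · intro v w e
      simp only [Prod.mk.injEq, mul_eq_mul_left_iff, Nat.cast_eq_zero, hd.ne', or_false] at e
      exact Prod.ext e.1 e.2
  · rw [Set.ncard_eq_zero ((oddPts_finite N).subset fun _ h => h.1),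
      Set.eq_empty_iff_forall_notMem]
    rintro ⟨x, y⟩ ⟨⟨-, hp⟩, hdvd⟩
    have h2 : (2 : ℤ) ∣ (d : ℤ) := by
      exact_mod_cast (Nat.not_odd_iff_even.1 hod).two_dvd
    have hdz := h2.trans (Int.natCast_dvd_natCast.2 hdvd)
    have := hdz.trans (Int.gcd_dvd_left x y)
    have := hdz.trans (Int.gcd_dvd_right x y)
    simp only at hp
    omega

theorem ncard_primPts (N : ℕ) :
    ((primPts N).ncard : ℝ) =
      ∑' d, if Odd d then (μ d : ℝ) * ((oddPts (N / d ^ 2)).ncard : ℝ) else 0 := by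
  classical
  set F := (oddPts_finite N).toFinset with hF
  have hmem : ∀ v, v ∈ F ↔ v ∈ oddPts N := fun v => Set.Finite.mem_toFinset _
  rw [tsum_eq_sum (s := Finset.Icc 1 N) fun d hd => ?_]
  · have hprim : ((primPts N).ncard : ℤ) =
        ∑ v ∈ F, ∑ d ∈ (Finset.Icc 1 N).filter (· ∣ Int.gcd v.1 v.2), μ d := by
      have hμ : ∀ v ∈ F, ∑ d ∈ (Finset.Icc 1 N).filter (· ∣ Int.gcd v.1 v.2), μ d =
          if Int.gcd v.1 v.2 = 1 then 1 else 0 := by
        intro v hv
        obtain ⟨h1, h2⟩ := gcd_pos_of_mem ((hmem v).1 hv)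
        rw [show (Finset.Icc 1 N).filter (· ∣ Int.gcd v.1 v.2) = (Int.gcd v.1 v.2).divisors by
          ext d
          simp only [Finset.mem_filter, Finset.mem_Icc, Nat.mem_divisors]
          exact ⟨fun h => ⟨h.2, h1.ne'⟩, fun h => ⟨⟨Nat.pos_of_dvd_of_pos h.1 h1,
            (Nat.le_of_dvd h1 h.1).trans h2⟩, h.1⟩⟩]
        have := congrArg (fun f : ArithmeticFunction ℤ => f (Int.gcd v.1 v.2))
          ArithmeticFunction.moebius_mul_coe_zeta
        rw [ArithmeticFunction.coe_mul_zeta_apply, ArithmeticFunction.one_apply] at this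
        exact this
      rw [Finset.sum_congr rfl hμ, Finset.sum_boole, Nat.cast_inj,
        ← Set.ncard_coe_finset]
      congr 1
      ext v
      simp [primPts, hmem]
    have hswap : ((primPts N).ncard : ℤ) = ∑ d ∈ Finset.Icc 1 N,
        μ d * (({v | v ∈ oddPts N ∧ d ∣ Int.gcd v.1 v.2}.ncard : ℕ) : ℤ) := by
      rw [hprim]
      simp only [Finset.sum_filter]
      rw [Finset.sum_comm]
      refine Finset.sum_congr rfl fun d _ => ?_
      rw [← Finset.sum_filter, Finset.sum_const, nsmul_eq_mul, mul_comm, ← Set.ncard_coe_finset]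
      congr 3
      ext v
      simp [hmem]
    have hcast := congrArg (Int.cast : ℤ → ℝ) hswap
    push_cast at hcast
    rw [hcast]
    refine Finset.sum_congr rfl fun d hd => ?_
    rw [ncard_oddPts_dvd (Finset.mem_Icc.1 hd).1]
    split_ifs <;> simp
  · rw [Finset.mem_Icc, not_and_or] at hd
    split_ifs with hod
    · have hlt : N / d ^ 2 = 0 := by
        rcases hd with hd | hd
        · have := hod.pos
          omega
        · exact Nat.div_eq_of_lt (lt_of_lt_of_le (not_le.1 hd) (Nat.le_self_pow two_ne_zero d))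
      simp [hlt, oddPts_zero]
    · rfl

theorem tendsto_ncard_primPts :
    Tendsto (fun N : ℕ => ((primPts N).ncard : ℝ) / N) atTop (𝓝 (4 / π)) := by
  have hlim : 4 / π = ∑' d, oddWeight d * (π / 2) := by
    rw [tsum_mul_right, tsum_oddWeight]
    field_simp
    ring
  rw [hlim]
  refine (tendsto_tsum_of_dominated_convergence (f := fun (N : ℕ) (d : ℕ) =>
      (if Odd d then (μ d : ℝ) * ((oddPts (N / d ^ 2)).ncard : ℝ) else 0) / N)
    (bound := fun d => 9 * (1 / (d : ℝ) ^ 2))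
    ((Real.summable_one_div_nat_pow.2 one_lt_two).mul_left 9) (fun d => ?_) ?_).congr' ?_
  · rw [oddWeight]
    split_ifs with hod
    · have h := (tendsto_ncard_oddPts (k := d ^ 2) (pow_pos hod.pos 2)).const_mul (μ d : ℝ)
      convert! h using 1
      · ext N
        ring
      · congr 1
        push_cast
        field_simp
    · simp
  · refine Eventually.of_forall fun N d => ?_
    split_ifs with hod
    · rcases Nat.eq_zero_or_pos (N / d ^ 2) with h0 | hpos
      · simp [h0, oddPts_zero]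
      · have hN : (0 : ℝ) < N := Nat.cast_pos.2 (lt_of_lt_of_le hpos (Nat.div_le_self _ _))
        have hd : (0 : ℝ) < d := Nat.cast_pos.2 hod.pos
        rw [Real.norm_eq_abs, abs_div, abs_mul, abs_of_pos hN, div_le_iff₀ hN]
        have h1 : |(μ d : ℝ)| ≤ 1 := by exact_mod_cast ArithmeticFunction.abs_moebius_le_one
        have h2 : ((oddPts (N / d ^ 2)).ncard : ℝ) ≤ 9 * ((N / d ^ 2 : ℕ) : ℝ) := by
          have hsub : oddPts (N / d ^ 2) ⊆ disc (N / d ^ 2) := fun _ h => h.1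
          exact_mod_cast (Set.ncard_le_ncard hsub (disc_finite _)).trans (ncard_disc_le hpos)
        have h3 : ((N / d ^ 2 : ℕ) : ℝ) ≤ (N : ℝ) / (d : ℝ) ^ 2 := by
          exact_mod_cast Nat.cast_div_le (α := ℝ)
        rw [Nat.abs_cast]
        calc _ ≤ 1 * (9 * ((N : ℝ) / (d : ℝ) ^ 2)) := by
              refine mul_le_mul h1 (h2.trans ?_) (by positivity) zero_le_one
              linarith
          _ = _ := by ring
    · simp
  · refine Eventually.of_forall fun N => ?_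
    simp only
    rw [ncard_primPts, tsum_div_const]

theorem ncard_double {α : Type*} {S : Set α} (hS : S.Finite) (f : α → α)
    (hinv : Function.Involutive f) (hmap : ∀ v ∈ S, f v ∈ S) (P : α → Prop)
    (hP : ∀ v ∈ S, P (f v) ↔ ¬P v) : S.ncard = 2 * {v | v ∈ S ∧ P v}.ncard := by
  set A := {v | v ∈ S ∧ P v}
  have hA : A.Finite := hS.subset fun _ h => h.1
  have hu : S = A ∪ f '' A := by
    ext v
    refine ⟨fun hv => ?_, ?_⟩
    · by_cases h : P v
      · exact Or.inl ⟨hv, h⟩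
      · exact Or.inr ⟨f v, ⟨hmap v hv, (hP v hv).2 h⟩, hinv v⟩
    · rintro (h | ⟨w, hw, rfl⟩)
      exacts [h.1, hmap w hw.1]
  have hd : Disjoint A (f '' A) := by
    rw [Set.disjoint_left]
    rintro v hv ⟨w, hw, rfl⟩
    exact (hP w hw.1).1 hv.2 hw.2
  rw [hu, Set.ncard_union_eq hd hA (hA.image f), Set.ncard_image_of_injective A hinv.injective]
  ring

/-- The parameters of the triples. -/
def params (N : ℕ) : Set (ℤ × ℤ) := {v | v ∈ primPts N ∧ 0 < v.2 ∧ v.2 < v.1}

theorem ncard_primPts_eq {N : ℕ} (hN : 0 < N) :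
    (primPts N).ncard = 8 * (params N).ncard + 4 := by
  have hfin : (primPts N).Finite := (oddPts_finite N).subset fun _ h => h.1
  set Q := {v : ℤ × ℤ | v ∈ primPts N ∧ v.1 ≠ 0 ∧ v.2 ≠ 0} with hQ
  set A : Set (ℤ × ℤ) := {(1, 0), (-1, 0), (0, 1), (0, -1)} with hA
  have hsplit : primPts N = Q ∪ A := by
    ext ⟨x, y⟩
    refine ⟨fun h => ?_, ?_⟩
    · rcases eq_or_ne x 0 with rfl | hx
      · have : Int.gcd 0 y = 1 := h.2
        rw [Int.gcd_zero_left] at this
        refine Or.inr ?_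
        simp only [hA, Set.mem_insert_iff, Set.mem_singleton_iff, Prod.mk.injEq, true_and]
        omega
      rcases eq_or_ne y 0 with rfl | hy
      · have : Int.gcd x 0 = 1 := h.2
        rw [Int.gcd_zero_right] at this
        refine Or.inr ?_
        simp only [hA, Set.mem_insert_iff, Set.mem_singleton_iff, Prod.mk.injEq, and_true]
        omega
      exact Or.inl ⟨h, hx, hy⟩
    · rintro (h | h)
      · exact h.1
      · simp only [hA, Set.mem_insert_iff, Set.mem_singleton_iff, Prod.mk.injEq] at h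
        rcases h with ⟨rfl, rfl⟩ | ⟨rfl, rfl⟩ | ⟨rfl, rfl⟩ | ⟨rfl, rfl⟩ <;>
          refine ⟨⟨?_, by norm_num⟩, by norm_num⟩ <;> show (_ : ℤ) ≤ (N : ℤ) <;> norm_num <;> omega
  have hdis : Disjoint Q A := by
    rw [Set.disjoint_left]
    rintro v ⟨-, h1, h2⟩ hv
    simp only [hA, Set.mem_insert_iff, Set.mem_singleton_iff] at hv
    rcases hv with rfl | rfl | rfl | rfl <;> simp at h1 h2
  have hA4 : A.ncard = 4 := by
    rw [hA, show ({(1, 0), (-1, 0), (0, 1), (0, -1)} : Set (ℤ × ℤ)) =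
      ↑({(1, 0), (-1, 0), (0, 1), (0, -1)} : Finset (ℤ × ℤ)) by simp, Set.ncard_coe_finset]
    decide
  have hAfin : A.Finite := hfin.subset (hsplit ▸ Set.subset_union_right)
  have hQfin : Q.Finite := hfin.subset fun _ h => h.1
  have hneg : ∀ v : ℤ × ℤ, v ∈ primPts N →
      (-v.1, v.2) ∈ primPts N ∧ (v.1, -v.2) ∈ primPts N ∧ (v.2, v.1) ∈ primPts N := by
    rintro ⟨x, y⟩ ⟨⟨hv, hp⟩, hg⟩
    have hv' : x ^ 2 + y ^ 2 ≤ (N : ℤ) := hv
    simp only at hp hg
    refine ⟨⟨⟨?_, ?_⟩, ?_⟩, ⟨⟨?_, ?_⟩, ?_⟩, ⟨⟨?_, ?_⟩, ?_⟩⟩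
    · show (-x) ^ 2 + y ^ 2 ≤ (N : ℤ)
      rwa [neg_sq]
    · simp only; omega
    · simpa using hg
    · show x ^ 2 + (-y) ^ 2 ≤ (N : ℤ)
      rwa [neg_sq]
    · simp only; omega
    · simpa using hg
    · show y ^ 2 + x ^ 2 ≤ (N : ℤ)
      linarith
    · simp only; omega
    · rw [Int.gcd_comm]; exact hg
  have s1 := ncard_double hQfin (fun v => (-v.1, v.2)) (fun v => by simp)
    (fun v hv => ⟨(hneg v hv.1).1, by simpa using hv.2.1, hv.2.2⟩) (fun v => 0 < v.1)
    (fun v hv => by have := hv.2.1; simp only; omega)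
  set Q1 := {v | v ∈ Q ∧ 0 < v.1}
  have s2 := ncard_double (hQfin.subset fun _ h => h.1 : Q1.Finite) (fun v => (v.1, -v.2))
    (fun v => by simp)
    (fun v hv => ⟨⟨(hneg v hv.1.1).2.1, hv.1.2.1, by simpa using hv.1.2.2⟩, hv.2⟩)
    (fun v => 0 < v.2) (fun v hv => by have := hv.1.2.2; simp only; omega)
  set Q2 := {v | v ∈ Q1 ∧ 0 < v.2}
  have s3 := ncard_double (hQfin.subset fun _ h => h.1.1 : Q2.Finite) Prod.swap Prod.swap_swap
    (fun v hv => ⟨⟨⟨(hneg v hv.1.1.1).2.2, hv.1.1.2.2, hv.1.1.2.1⟩, hv.2⟩, hv.1.2⟩)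
    (fun v => v.2 < v.1) (fun v hv => by
      have := hv.1.1.1.1.2
      simp only [Prod.snd_swap, Prod.fst_swap]
      omega)
  have hlast : {v | v ∈ Q2 ∧ v.2 < v.1} = params N := by
    ext v
    constructor
    · rintro ⟨⟨⟨⟨h, -, -⟩, -⟩, h2⟩, h3⟩
      exact ⟨h, h2, h3⟩
    · rintro ⟨h, h2, h3⟩
      exact ⟨⟨⟨⟨h, by omega, by omega⟩, by omega⟩, h2⟩, h3⟩
  rw [hsplit, Set.ncard_union_eq hdis hQfin hAfin, hA4, s1, s2, s3, hlast]
  ring

/-- The primitive triples with hypotenuse at most `N`. -/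
def triples (N : ℕ) : Set (ℕ × ℕ × ℕ) :=
  {t | 0 < t.1 ∧ t.1 < t.2.1 ∧ t.1 ^ 2 + t.2.1 ^ 2 = t.2.2 ^ 2 ∧ Nat.gcd t.1 t.2.1 = 1 ∧ t.2.2 ≤ N}

theorem ncard_triples (N : ℕ) : (triples N).ncard = (params N).ncard := by
  set φ : ℤ × ℤ → ℕ × ℕ × ℕ := fun v =>
    (min (v.1 ^ 2 - v.2 ^ 2).natAbs (2 * v.1 * v.2).natAbs,
      max (v.1 ^ 2 - v.2 ^ 2).natAbs (2 * v.1 * v.2).natAbs, (v.1 ^ 2 + v.2 ^ 2).natAbs) with hφ
  have hval : ∀ v ∈ params N, 0 < v.1 ^ 2 - v.2 ^ 2 ∧ 0 < 2 * v.1 * v.2 ∧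
      (v.1 ^ 2 - v.2 ^ 2) % 2 = 1 ∧ (2 * v.1 * v.2) % 2 = 0 := by
    rintro ⟨x, y⟩ ⟨⟨⟨-, hp⟩, -⟩, hy, hxy⟩
    simp only at hp hy hxy ⊢
    refine ⟨by nlinarith, by nlinarith, ?_, by simp [mul_assoc]⟩
    rw [show x ^ 2 - y ^ 2 = (x + y) * (x - y) by ring, Int.mul_emod, hp,
      show (x - y) % 2 = 1 by omega]
    rfl
  rw [← Set.InjOn.ncard_image (f := φ) (s := params N) ?_]
  · congr 1
    ext ⟨a, b, c⟩
    constructor
    · rintro ⟨ha, hab, heq, hg, hc⟩
      simp only at ha hab heq hg hc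
      have hpt : PythagoreanTriple (a : ℤ) b c := by
        have : ((a : ℤ)) ^ 2 + (b : ℤ) ^ 2 = (c : ℤ) ^ 2 := by exact_mod_cast heq
        simp only [PythagoreanTriple]
        linear_combination this
      obtain ⟨m, n, hxy, hz, hmn, hpar⟩ :=
        PythagoreanTriple.coprime_classification.1 ⟨hpt, by rw [Int.gcd_natCast_natCast]; exact hg⟩
      have hc' : (c : ℤ) = m ^ 2 + n ^ 2 := by
        rcases hz with h | h
        · exact h
        · have := sq_nonneg m
          have := sq_nonneg n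
          omega
      have habs : ∀ z : ℤ, |z| ^ 2 = z ^ 2 := sq_abs
      have hpos : 0 < m ^ 2 - n ^ 2 ∧ 0 < 2 * m * n := by
        rcases hxy with ⟨h1, h2⟩ | ⟨h1, h2⟩ <;> omega
      have hm0 : n ≠ 0 := by
        rintro rfl
        simp at hpos
      have hlt : |n| < |m| := sq_lt_sq.1 (by linarith [hpos.1])
      have hmn' : |2 * m * n| = 2 * |m| * |n| := by rw [abs_mul, abs_mul, abs_two]
      refine ⟨(|m|, |n|), ⟨⟨⟨?_, ?_⟩, ?_⟩, abs_pos.2 hm0, hlt⟩, ?_⟩
      · show |m| ^ 2 + |n| ^ 2 ≤ (N : ℤ)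
        rw [habs, habs, ← hc']
        exact_mod_cast hc
      · simp only
        rcases abs_choice m with e | e <;> rcases abs_choice n with e' | e' <;> rw [e, e'] <;> omega
      · show Int.gcd |m| |n| = 1
        rcases abs_choice m with e | e <;> rcases abs_choice n with e' | e' <;> rw [e, e'] <;>
          simpa using hmn
      · simp only [hφ, habs, Prod.mk.injEq]
        rw [← hmn', abs_of_pos hpos.2]
        rcases hxy with ⟨h1, h2⟩ | ⟨h1, h2⟩ <;> rw [← h1, ← h2, ← hc'] <;>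
          simp only [Int.natAbs_natCast] <;>
          simp only [and_true] <;> omega
    · rintro ⟨⟨x, y⟩, hv, e⟩
      obtain ⟨h1, h2, -, -⟩ := hval _ hv
      obtain ⟨⟨⟨hd, hp⟩, hg⟩, hy, hxy⟩ := hv
      have hd' : x ^ 2 + y ^ 2 ≤ (N : ℤ) := hd
      simp only at h1 h2 hp hg hy hxy
      simp only [hφ, Prod.mk.injEq] at e
      obtain ⟨ea, eb, ec⟩ := e
      have hc' : ((c : ℤ)) = x ^ 2 + y ^ 2 := by
        rw [← ec, Int.natAbs_of_nonneg (by positivity)]
      have hcls := (PythagoreanTriple.coprime_classification (x := x ^ 2 - y ^ 2) (y := 2 * x * y)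
        (z := (c : ℤ))).2 ⟨x, y, Or.inl ⟨rfl, rfl⟩, Or.inl hc', hg, by omega⟩
      have heq : ((x ^ 2 - y ^ 2).natAbs) ^ 2 + ((2 * x * y).natAbs) ^ 2 = c ^ 2 := by
        have h3 : (x ^ 2 - y ^ 2) ^ 2 + (2 * x * y) ^ 2 = (c : ℤ) ^ 2 := by rw [hc']; ring
        zify
        rw [sq_abs, sq_abs]
        exact h3
      have hgcd : Nat.gcd (x ^ 2 - y ^ 2).natAbs (2 * x * y).natAbs = 1 := hcls.2
      have hne : (x ^ 2 - y ^ 2).natAbs ≠ (2 * x * y).natAbs := by
        intro e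
        rw [e, Nat.gcd_self] at hgcd
        have : (2 * x * y) % 2 = 0 := by simp [mul_assoc]
        omega
      refine ⟨?_, ?_, ?_, ?_, ?_⟩ <;> simp only
      · omega
      · omega
      · rcases le_total (x ^ 2 - y ^ 2).natAbs (2 * x * y).natAbs with h | h
        · rw [min_eq_left h] at ea
          rw [max_eq_right h] at eb
          rw [← ea, ← eb, heq]
        · rw [min_eq_right h] at ea
          rw [max_eq_left h] at eb
          rw [← ea, ← eb, add_comm, heq]
      · rcases le_total (x ^ 2 - y ^ 2).natAbs (2 * x * y).natAbs with h | h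
        · rw [min_eq_left h] at ea
          rw [max_eq_right h] at eb
          rw [← ea, ← eb, hgcd]
        · rw [min_eq_right h] at ea
          rw [max_eq_left h] at eb
          rw [← ea, ← eb, Nat.gcd_comm, hgcd]
      · omega
  · intro v hv w hw e
    obtain ⟨a1, a2, a3, a4⟩ := hval v hv
    obtain ⟨b1, b2, b3, b4⟩ := hval w hw
    simp only [hφ, Prod.mk.injEq] at e
    obtain ⟨e1, e2, e3⟩ := e
    have hv2 := hv.2
    have hw2 := hw.2
    have s1 := sq_nonneg v.1
    have s2 := sq_nonneg v.2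
    have s3 := sq_nonneg w.1
    have s4 := sq_nonneg w.2
    have h12 : v.1 ^ 2 = w.1 ^ 2 ∧ v.2 ^ 2 = w.2 ^ 2 := by omega
    exact Prod.ext
      ((pow_left_inj₀ (by omega) (by omega) two_ne_zero).1 h12.1)
      ((pow_left_inj₀ (by omega) (by omega) two_ne_zero).1 h12.2)

theorem lehmer : Tendsto (fun N : ℕ => ((triples N).ncard : ℝ) / N) atTop (𝓝 (1 / (2 * π))) := by
  have h := (tendsto_ncard_primPts.div_const 8).sub (tendsto_const_div_atTop_nhds_zero_nat (1 / 2))
  rw [sub_zero, show 4 / π / 8 = 1 / (2 * π) by ring] at h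
  refine h.congr' ?_
  filter_upwards [eventually_gt_atTop 0] with N hN
  rw [ncard_primPts_eq hN, ncard_triples]
  push_cast
  ring

end FA.PythagoreanCount
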